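import Fermat.Prelude.Def_EllipticCurve_FrobeniusTrace
import Mathlib.RingTheory.Invariant.Profinite
import Mathlib.RingTheory.IntegralClosure.Algebra.Basic
import Mathlib.FieldTheory.Galois.Profinite
import Mathlib.FieldTheory.IsAlgClosed.AlgebraicClosure
import Mathlib.RingTheory.Polynomial.Content
import Mathlib.RingTheory.Algebraic.Integral
import Mathlib.RingTheory.Valuation.LocalSubring
import Mathlib.FieldTheory.Galois.Infinite

/-!
# Existence of places and of Frobenius elements in the absolute Galois group of `ℚ`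

* `Fermat.Agent.Frobenius.exists_liesOverPrime`: for every prime `q` there is a valuation subring
  of `AlgebraicClosure ℚ` lying over `q`;
* `Fermat.Agent.Frobenius.exists_isFrobeniusAt`: every such valuation subring has an (arithmetic)
  Frobenius element;
* `Fermat.Agent.Frobenius.exists_place_isFrobeniusAt`: combination of the two.
-/

set_option autoImplicit false

noncomputable section

open scoped Pointwise
open Polynomial

namespace Fermat.Agent.Frobenius

variable {L : Type} [Field L]

/-- An element of a field integral over `ℤ` lies in every valuation subring. -/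
theorem valuation_le_one_of_isIntegral (A : ValuationSubring L) {y : L} (hy : IsIntegral ℤ y) :
    A.valuation y ≤ 1 := by
  rw [A.valuation_le_one_iff]
  have h : IsIntegral A y := hy.tower_top
  obtain ⟨z, hz⟩ := IsIntegrallyClosed.isIntegral_iff.mp h
  exact hz ▸ z.2

/-- For every prime `q` there is a valuation subring of a field of characteristic zero over `q`. -/
theorem exists_liesOverPrime [CharZero L] {q : ℕ} (hq : q.Prime) :
    ∃ A : ValuationSubring L, A.LiesOverPrime q := by
  let B : Subring L := (Int.castRingHom L).range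
  have hne : Ideal.span {((q : ℕ) : B)} ≠ ⊤ := by
    intro h
    rw [Ideal.span_singleton_eq_top] at h
    obtain ⟨⟨_, m, rfl⟩, hm⟩ := h.exists_left_inv
    have h2 : ((m : ℤ) : L) * (q : L) = 1 := congrArg Subtype.val hm
    have h3 : m * (q : ℤ) = 1 := by exact_mod_cast h2
    have := Int.eq_one_of_mul_eq_one_left (Int.natCast_nonneg q) h3
    exact hq.one_lt.ne' (by exact_mod_cast this)
  obtain ⟨A, -, hA⟩ := Ideal.image_subset_nonunits_valuationSubring _ hne
  exact ⟨A, hA ⟨_, Ideal.mem_span_singleton_self _, rfl⟩⟩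

/-- If `x ∈ A` is a root of a polynomial with integral coefficients, not all in the maximal ideal,
then `x` is a fraction of integral elements with denominator a unit in `A`. -/
theorem exists_fraction_of_root (A : ValuationSubring L) {x : L} (hx : A.valuation x ≤ 1) :
    ∀ (n : ℕ) (c : ℕ → L), (∀ i, IsIntegral ℤ (c i)) →
      ∑ i ∈ Finset.range (n + 1), c i * x ^ i = 0 →
      (∃ i ≤ n, A.valuation (c i) = 1) →
      ∃ s : L, IsIntegral ℤ s ∧ A.valuation s = 1 ∧ IsIntegral ℤ (x * s) := by
  intro n
  induction n with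
  | zero =>
    intro c _ hsum ⟨i, hi, hi1⟩
    obtain rfl : i = 0 := by omega
    simp at hsum
    simp [hsum] at hi1
  | succ n ih =>
    intro c hc hsum hex
    have hcx : IsIntegral ℤ (c (n + 1) * x) := by
      let cO : ℕ → integralClosure ℤ L := fun i => ⟨c i, hc i⟩
      let M : (integralClosure ℤ L)[X] :=
        X ^ (n + 1) + ∑ i : Fin (n + 1), C (cO i * cO (n + 1) ^ (n - (i : ℕ))) * X ^ (i : ℕ)
      have hM : M.Monic := monic_X_pow_add (degree_sum_fin_lt _)
      have h0 : IsIntegral (integralClosure ℤ L) (c (n + 1) * x) := by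
        refine ⟨M, hM, ?_⟩
        simp only [M, eval₂_add, eval₂_finsetSum, eval₂_mul, eval₂_C, eval₂_pow, eval₂_X, map_mul,
          map_pow]
        show (c (n + 1) * x) ^ (n + 1) + ∑ i : Fin (n + 1),
          c i * c (n + 1) ^ (n - (i : ℕ)) * (c (n + 1) * x) ^ (i : ℕ) = 0
        have : ∀ i : Fin (n + 1), c i * c (n + 1) ^ (n - (i : ℕ)) * (c (n + 1) * x) ^ (i : ℕ)
            = c (n + 1) ^ n * (c i * x ^ (i : ℕ)) := by
          intro i
          rw [mul_pow, ← pow_sub_mul_pow (c (n + 1)) (Nat.le_of_lt_succ i.2)]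
          ring
        simp only [this]
        rw [Fin.sum_univ_eq_sum_range (fun i => c (n + 1) ^ n * (c i * x ^ i)) (n + 1),
          ← Finset.mul_sum]
        calc (c (n + 1) * x) ^ (n + 1) + c (n + 1) ^ n * ∑ i ∈ Finset.range (n + 1), c i * x ^ i
            = c (n + 1) ^ n * ∑ i ∈ Finset.range (n + 2), c i * x ^ i := by
              rw [Finset.sum_range_succ _ (n + 1)]; ring
          _ = 0 := by rw [hsum, mul_zero]
      exact isIntegral_trans _ h0
    by_cases htop : A.valuation (c (n + 1)) = 1
    · exact ⟨c (n + 1), hc _, htop, by rwa [mul_comm]⟩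
    have hlt : A.valuation (c (n + 1) * x) < 1 := by
      have h1 := lt_of_le_of_ne (valuation_le_one_of_isIntegral A (hc (n + 1))) htop
      rw [map_mul]
      exact lt_of_le_of_lt (mul_le_of_le_one_right' hx) h1
    let c' : ℕ → L := fun i => if i = n then c (n + 1) * x + c n else c i
    refine ih c' (fun i => ?_) ?_ ?_
    · by_cases h : i = n
      · simp only [c', if_pos h]; exact hcx.add (hc n)
      · simp only [c', if_neg h]; exact hc i
    · rw [Finset.sum_range_succ] at hsum ⊢
      rw [Finset.sum_range_succ] at hsum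
      have : ∑ i ∈ Finset.range n, c' i * x ^ i = ∑ i ∈ Finset.range n, c i * x ^ i :=
        Finset.sum_congr rfl fun i hi => by
          simp only [c', if_neg (Finset.mem_range.mp hi).ne]
      rw [this]
      simp only [c', if_true]
      rw [← hsum]
      ring
    · obtain ⟨i, hi, hi1⟩ := hex
      have hi' : i ≠ n + 1 := fun h => htop (h ▸ hi1)
      refine ⟨i, by omega, ?_⟩
      by_cases h : i = n
      · subst h
        simp only [c', if_true]
        rw [A.valuation.map_add_eq_of_lt_right (by rw [hi1]; exact hlt), hi1]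
      · simpa only [c', if_neg h] using hi1

/-- A place over `q` sees exactly the multiples of `q` among the integers. -/
theorem valuation_intCast_eq_one {A : ValuationSubring L} {q : ℕ} (hq : q.Prime)
    (hA : A.LiesOverPrime q) {m : ℤ} (hm : ¬ (q : ℤ) ∣ m) : A.valuation (m : L) = 1 := by
  refine le_antisymm (valuation_le_one_of_isIntegral A isIntegral_algebraMap) ?_
  by_contra hlt
  rw [not_le] at hlt
  obtain ⟨a, b, hab⟩ := (Nat.prime_iff_prime_int.mp hq).coprime_iff_not_dvd.mpr hm
  have hqv : A.valuation (q : L) < 1 := A.mem_nonunits_iff.mp hA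
  have h : A.valuation ((a : L) * q + (b : L) * m) < 1 := by
    refine A.valuation.map_add_lt ?_ ?_ <;> rw [map_mul]
    · exact lt_of_le_of_lt (mul_le_of_le_one_left'
        (valuation_le_one_of_isIntegral A isIntegral_algebraMap)) hqv
    · exact lt_of_le_of_lt (mul_le_of_le_one_left'
        (valuation_le_one_of_isIntegral A isIntegral_algebraMap)) hlt
  rw [show (a : L) * q + (b : L) * m = 1 by exact_mod_cast congrArg (fun z : ℤ => (z : L)) hab,
    map_one] at h
  exact lt_irrefl _ h

local notation "ℚbar" => AlgebraicClosure ℚ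
local notation "Γℚ" => AlgebraicClosure ℚ ≃ₐ[ℚ] AlgebraicClosure ℚ

/-- The algebraic closure of `ℚ` is algebraic over `ℚ` (for the canonical `ℚ`-algebra structure). -/
theorem isAlgebraic_algClosureRat : Algebra.IsAlgebraic ℚ ℚbar :=
  AlgebraicClosure.isAlgebraic ℚ

/-- The algebraic closure of `ℚ` is Galois over `ℚ` (for the canonical `ℚ`-algebra structure). -/
theorem isGalois_algClosureRat : IsGalois ℚ ℚbar := by
  have := isAlgebraic_algClosureRat
  have : IsAlgClosure ℚ ℚbar := ⟨inferInstance, inferInstance⟩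
  have : Normal ℚ ℚbar := IsAlgClosure.normal ℚ ℚbar
  exact ⟨⟩

/-- Every element of a valuation subring of `ℚbar` over a prime is a fraction of algebraic
integers whose denominator is a unit of the valuation subring. -/
theorem exists_fraction {A : ValuationSubring ℚbar} {q : ℕ} (hq : q.Prime)
    (hA : A.LiesOverPrime q) {x : ℚbar} (hx : A.valuation x ≤ 1) :
    ∃ s : ℚbar, IsIntegral ℤ s ∧ A.valuation s = 1 ∧ IsIntegral ℤ (x * s) := by
  have := isAlgebraic_algClosureRat
  have halg : IsAlgebraic ℤ x :=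
    (IsFractionRing.isAlgebraic_iff ℤ ℚ ℚbar).mpr (Algebra.IsAlgebraic.isAlgebraic x)
  obtain ⟨p, hp0, hp⟩ := halg
  have hpp : aeval x p.primPart = 0 := aeval_primPart_eq_zero hp0 hp
  obtain ⟨i, hi⟩ : ∃ i, ¬ (q : ℤ) ∣ p.primPart.coeff i := by
    by_contra hall
    push Not at hall
    have := (isPrimitive_primPart p) (q : ℤ) ((C_dvd_iff_dvd_coeff _ _).mpr hall)
    exact (Nat.prime_iff_prime_int.mp hq).not_isUnit this
  refine exists_fraction_of_root A hx p.primPart.natDegree
    (fun j => ((p.primPart.coeff j : ℤ) : ℚbar)) (fun j => isIntegral_algebraMap) ?_ ⟨i, ?_, ?_⟩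
  · rw [← hpp, aeval_eq_sum_range]
    simp [zsmul_eq_mul]
  · exact le_natDegree_of_ne_zero fun h => hi (h ▸ dvd_zero _)
  · exact valuation_intCast_eq_one hq hA hi

/-- The maximal ideal of `A`, traced on the algebraic integers. -/
def centre (A : ValuationSubring ℚbar) : Ideal (integralClosure ℤ ℚbar) where
  carrier := {y | A.valuation (y : ℚbar) < 1}
  add_mem' := fun ha hb => A.valuation.map_add_lt ha hb
  zero_mem' := by simp
  smul_mem' := fun c y hy => by
    show A.valuation ((c : ℚbar) * y) < 1
    rw [map_mul]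
    exact lt_of_le_of_lt (mul_le_of_le_one_left' (valuation_le_one_of_isIntegral A c.2)) hy

theorem mem_centre {A : ValuationSubring ℚbar} {y : integralClosure ℤ ℚbar} :
    y ∈ centre A ↔ A.valuation (y : ℚbar) < 1 := Iff.rfl

instance centre_isPrime (A : ValuationSubring ℚbar) : (centre A).IsPrime := by
  refine ⟨?_, fun {a b} hab => ?_⟩
  · rw [Ideal.ne_top_iff_one]
    simp [mem_centre]
  · by_contra h
    rw [not_or, mem_centre, mem_centre, not_lt, not_lt] at h
    rw [mem_centre, Subalgebra.coe_mul, map_mul] at hab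
    rw [le_antisymm (valuation_le_one_of_isIntegral A a.2) h.1,
      le_antisymm (valuation_le_one_of_isIntegral A b.2) h.2, one_mul] at hab
    exact lt_irrefl _ hab

/-- An element of the decomposition group is recognised on algebraic integers. -/
theorem valuation_map_le_one {A : ValuationSubring ℚbar} {q : ℕ} (hq : q.Prime)
    (hA : A.LiesOverPrime q) (τ : Γℚ)
    (hτ : ∀ s : ℚbar, IsIntegral ℤ s → A.valuation s = 1 → A.valuation (τ s) = 1)
    {x : ℚbar} (hx : A.valuation x ≤ 1) : A.valuation (τ x) ≤ 1 := by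
  obtain ⟨s, hs, hs1, hxs⟩ := exists_fraction hq hA hx
  have h := valuation_le_one_of_isIntegral A (hxs.map (τ.restrictScalars ℤ))
  rw [AlgEquiv.restrictScalars_apply, map_mul, map_mul, hτ s hs hs1, mul_one] at h
  exact h

/-- An automorphism inducing the `q`-power map on algebraic integers modulo the maximal ideal of
`A` is a Frobenius element at `A`. -/
theorem isFrobeniusAt_of_forall_isIntegral {A : ValuationSubring ℚbar} {q : ℕ} (hq : q.Prime)
    (hA : A.LiesOverPrime q) (σ : Γℚ)
    (hσ : ∀ y : ℚbar, IsIntegral ℤ y → A.valuation (σ y - y ^ q) < 1) :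
    A.IsFrobeniusAt σ q := by
  have hunit : ∀ y : ℚbar, IsIntegral ℤ y → A.valuation y = 1 → A.valuation (σ y) = 1 := by
    intro y hy hy1
    have h1 : A.valuation (y ^ q) = 1 := by rw [map_pow, hy1, one_pow]
    have := A.valuation.map_add_eq_of_lt_left (x := y ^ q) (y := σ y - y ^ q)
      (by rw [h1]; exact hσ y hy)
    rwa [add_sub_cancel, h1] at this
  have hunit' : ∀ y : ℚbar, IsIntegral ℤ y → A.valuation y = 1 →
      A.valuation (σ.symm y) = 1 := by
    intro y hy hy1
    have hy' : IsIntegral ℤ (σ.symm y) := hy.map (σ.symm.restrictScalars ℤ)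
    refine le_antisymm (valuation_le_one_of_isIntegral A hy') ?_
    by_contra h
    rw [not_le] at h
    have h2 : A.valuation ((σ.symm y) ^ q) < 1 := by
      rw [map_pow]; exact pow_lt_one₀ zero_le h hq.ne_zero
    have h3 := A.valuation.map_add_lt (hσ _ hy') h2
    rw [sub_add_cancel, AlgEquiv.apply_symm_apply, hy1] at h3
    exact lt_irrefl _ h3
  have hmem : σ ∈ A.decompositionSubgroup ℚ := by
    rw [MulAction.mem_stabilizer_iff]
    refine SetLike.ext fun x => ?_
    rw [ValuationSubring.mem_pointwise_smul_iff_inv_smul_mem, AlgEquiv.smul_def,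
      ← A.valuation_le_one_iff, ← A.valuation_le_one_iff]
    constructor
    · intro h
      simpa using valuation_map_le_one hq hA σ hunit h
    · exact valuation_map_le_one hq hA σ⁻¹ hunit'
  refine ⟨hmem, fun r => ?_⟩
  obtain ⟨⟨x, hxA⟩, rfl⟩ := IsLocalRing.residue_surjective r
  rw [← IsLocalRing.ResidueField.residue_smul, ← map_pow, ← sub_eq_zero, ← map_sub,
    IsLocalRing.residue_eq_zero_iff, A.valuation_lt_one_iff]
  show A.valuation (σ x - x ^ q) < 1
  have hx : A.valuation x ≤ 1 := (A.valuation_le_one_iff x).mpr hxA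
  obtain ⟨s, hs, hs1, hxs⟩ := exists_fraction hq hA hx
  have h1 := hσ _ hxs
  have h2 : A.valuation (x ^ q * (σ s - s ^ q)) < 1 := by
    rw [map_mul]
    exact lt_of_le_of_lt (mul_le_of_le_one_left' (by rw [map_pow]; exact pow_le_one' hx q))
      (hσ s hs)
  have h3 := A.valuation.map_sub_lt h1 h2
  rw [map_mul, show σ x * σ s - (x * s) ^ q - x ^ q * (σ s - s ^ q) = (σ x - x ^ q) * σ s by ring,
    map_mul, hunit s hs hs1, mul_one] at h3
  exact h3

theorem isInvariant_integralClosure :
    Algebra.IsInvariant ℤ (integralClosure ℤ ℚbar) Γℚ := by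
  have := isGalois_algClosureRat
  refine ⟨fun y hy => ?_⟩
  obtain ⟨r, hr⟩ := (InfiniteGalois.mem_range_algebraMap_iff_fixed (y : ℚbar)).mpr
    (fun g => congrArg Subtype.val (hy g))
  have hint : IsIntegral ℤ r := by
    have h : IsIntegral ℤ (algebraMap ℚ ℚbar r) := hr ▸ y.2
    exact (isIntegral_algebraMap_iff (algebraMap ℚ ℚbar).injective).mp h
  obtain ⟨m, hm⟩ := IsIntegrallyClosed.isIntegral_iff.mp hint
  refine ⟨m, Subtype.ext ?_⟩
  rw [← hr, ← hm]
  simp

/-- Every valuation subring of `ℚbar` over a prime `q` has a Frobenius element. -/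
theorem exists_isFrobeniusAt {A : ValuationSubring ℚbar} {q : ℕ} (hq : q.Prime)
    (hA : A.LiesOverPrime q) : ∃ σ : Γℚ, A.IsFrobeniusAt σ q := by
  have := isAlgebraic_algClosureRat
  have := isGalois_algClosureRat
  let O := integralClosure ℤ ℚbar
  let _ : TopologicalSpace O := ⊥
  have : DiscreteTopology O := ⟨rfl⟩
  have : ContinuousSMul Γℚ O := by
    rw [continuousSMul_iff_stabilizer_isOpen]
    intro y
    have h : MulAction.stabilizer Γℚ y = MulAction.stabilizer Γℚ (y : ℚbar) := by
      ext g
      simp only [MulAction.mem_stabilizer_iff]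
      exact Subtype.ext_iff
    rw [h]
    exact stabilizer_isOpen_of_isIntegral _
  have := isInvariant_integralClosure
  let Q : Ideal O := centre A
  let P : Ideal ℤ := Ideal.span {(q : ℤ)}
  have hPmax : P.IsMaximal :=
    PrincipalIdealRing.isMaximal_of_irreducible (Nat.prime_iff_prime_int.mp hq).irreducible
  have hqQ : algebraMap ℤ O (q : ℤ) ∈ Q := by
    show A.valuation _ < 1
    simpa using (A.mem_nonunits_iff.mp hA)
  have : Q.LiesOver P := by
    refine ⟨hPmax.eq_of_le ?_ ?_⟩
    · exact Ideal.comap_ne_top _ (Ideal.IsPrime.ne_top inferInstance)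
    · rwa [Ideal.span_le, Set.singleton_subset_iff]
  have : Fact q.Prime := ⟨hq⟩
  have : CharP (O ⧸ Q) q := CharP.charP_iff_prime_eq_zero hq |>.mpr (by
    rw [← map_natCast (Ideal.Quotient.mk Q), Ideal.Quotient.eq_zero_iff_mem]
    simpa using hqQ)
  have : ExpChar (O ⧸ Q) q := .prime hq
  have hbij : Function.Bijective (frobenius (O ⧸ Q) q) := by
    refine ⟨frobenius_inj _ q, fun z => ?_⟩
    obtain ⟨y, rfl⟩ := Ideal.Quotient.mk_surjective z
    obtain ⟨w, hw⟩ := IsAlgClosed.exists_pow_nat_eq (y : ℚbar) hq.pos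
    have hwi : IsIntegral ℤ w := IsIntegral.of_pow hq.pos (hw ▸ y.2)
    refine ⟨Ideal.Quotient.mk Q ⟨w, hwi⟩, ?_⟩
    rw [frobenius_def, ← map_pow]
    congr 1
    exact Subtype.ext hw
  let l : (O ⧸ Q) ≃ₐ[ℤ ⧸ P] O ⧸ Q :=
    AlgEquiv.ofRingEquiv (f := RingEquiv.ofBijective (frobenius (O ⧸ Q) q) hbij) (by
      intro r
      obtain ⟨m, rfl⟩ := Ideal.Quotient.mk_surjective r
      rw [RingEquiv.ofBijective_apply, Ideal.Quotient.algebraMap_mk_of_liesOver, eq_intCast,
        map_intCast, map_intCast])
  obtain ⟨⟨σ, hσQ⟩, hσ⟩ :=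
    Ideal.Quotient.stabilizerHom_surjective_of_profinite (G := Γℚ) P Q l
  refine ⟨σ, isFrobeniusAt_of_forall_isIntegral hq hA σ fun y hy => ?_⟩
  have h := DFunLike.congr_fun hσ (Ideal.Quotient.mk Q ⟨y, hy⟩)
  have h' : Ideal.Quotient.mk Q (σ • (⟨y, hy⟩ : O)) =
      Ideal.Quotient.mk Q ((⟨y, hy⟩ : O) ^ q) := by
    rw [map_pow]
    exact h
  exact Ideal.Quotient.eq.mp h'

/-- For every prime `q` there are a place of `ℚbar` over `q` and a Frobenius element at it. -/
theorem exists_place_isFrobeniusAt {q : ℕ} (hq : q.Prime) :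
    ∃ (A : ValuationSubring ℚbar) (σ : Γℚ), A.LiesOverPrime q ∧ A.IsFrobeniusAt σ q :=
  let ⟨A, hA⟩ := exists_liesOverPrime (L := ℚbar) hq
  let ⟨σ, hσ⟩ := exists_isFrobeniusAt hq hA
  ⟨A, σ, hA, hσ⟩

end Fermat.Agent.Frobenius
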